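import Fermat.Agent.S55.Local.H775.Ord
import Fermat.Agent.S55.Local.H608.LF
import Fermat.Agent.S55.Local.H715.Integers

/-!
# S55 layer L, piece UR6 (helper775): the inertia group and its order

* `card_inertia_inf_eq` (abstract): for a discrete valuation ring `S`, finite over `A`, with finite
  residue field and a finite group `G` of `A`-automorphisms of `S`, and a subgroup `H` of `G`,
  the order of `inertia ⊓ H` is the ramification index of `S` over the ring of invariants `S^H`
  (Mathlib `Ideal.card_inertia_eq_ramificationIdxIn`).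
* `exists_inertia_ord`: for `N / K` finite Galois of local fields there is a normal subgroup `I`
  of `Gal(N/K)` such that for every subgroup `H`, the orders (w.r.t. a uniformizer of `N`) of the
  `H`-invariant elements of `Nˣ` are exactly the multiples of `|I ⊓ H|`.
-/

set_option autoImplicit false
set_option linter.unusedSectionVars false
set_option linter.style.haveILetI false

namespace Fermat.Agent.S55.Local.H775

open Fermat.Agent.S55.Local IsLocalRing Ideal

section Abstract

/-- The ring of invariants of a group of automorphisms of a valuation ring is a valuation ring. -/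
lemma valuationRing_fixedPoints (A : Type*) {S G : Type*} [CommRing A] [CommRing S] [Algebra A S]
    [IsDomain S] [ValuationRing S] [Group G] [MulSemiringAction G S] [SMulCommClass G A S]
    (H : Subgroup G) :
    ValuationRing (FixedPoints.subalgebra A S H) := by
  rw [ValuationRing.iff_dvd_total]
  refine ⟨fun a b => ?_⟩
  have key : ∀ a b : FixedPoints.subalgebra A S H, (a : S) ∣ (b : S) → a ∣ b := by
    intro a b hab
    obtain ⟨c, hc⟩ := hab
    by_cases ha : (a : S) = 0
    · have hb : (b : S) = 0 := by rw [hc, ha, zero_mul]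
      exact ⟨0, Subtype.ext (by simp [hb])⟩
    · refine ⟨⟨c, fun h => ?_⟩, Subtype.ext hc⟩
      have h1 : h • (b : S) = (b : S) := b.2 h
      have h2 : h • (a : S) = (a : S) := a.2 h
      have h3 : (a : S) * (h • c) = (a : S) * c := by
        rw [← hc, ← h1, hc, smul_mul', h2]
      exact mul_left_cancel₀ ha h3
  rcases ValuationRing.dvd_total (a : S) (b : S) with h | h
  · exact Or.inl (key a b h)
  · exact Or.inr (key b a h)

theorem card_inertia_inf_eq (A : Type*) {S G : Type*} [CommRing A] [CommRing S] [Algebra A S]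
    [IsDomain S] [IsDiscreteValuationRing S] [Module.Finite A S]
    [Finite (IsLocalRing.ResidueField S)]
    [Group G] [Finite G] [MulSemiringAction G S] [FaithfulSMul G S] [SMulCommClass G A S]
    (H : Subgroup G) (n : ℕ)
    (hle : ∀ r : S, (∀ h ∈ H, h • r = r) → r ∈ maximalIdeal S → r ∈ maximalIdeal S ^ n)
    (hnle : ∃ r : S, (∀ h ∈ H, h • r = r) ∧ r ∈ maximalIdeal S ∧ r ∉ maximalIdeal S ^ (n + 1)) :
    Nat.card ↥((maximalIdeal S).inertia G ⊓ H) = n := by
  -- the fixed ring
  let R := FixedPoints.subalgebra A S H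
  haveI hGal : IsGaloisGroup H R S :=
    { faithful := inferInstance
      commutes := inferInstance
      isInvariant := ⟨fun x h => ⟨⟨x, h⟩, rfl⟩⟩ }
  haveI : ValuationRing R := valuationRing_fixedPoints A H
  haveI : Module.Finite R S := Module.Finite.of_restrictScalars_finite A R S
  haveI : Module.Flat R S := by
    rw [Module.Flat.flat_iff_torsion_eq_bot_of_isBezout,
      ← Submodule.isTorsionFree_iff_torsion_eq_bot]
    infer_instance
  set P : Ideal S := maximalIdeal S with hP
  set p : Ideal R := P.under R with hp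
  haveI : P.LiesOver p := Ideal.over_under P
  haveI : P.IsMaximal := maximalIdeal.isMaximal S
  haveI : Algebra.IsIntegral R S := Algebra.IsIntegral.of_finite R S
  haveI : p.IsMaximal := Ideal.isMaximal_comap_of_isIntegral_of_isMaximal P
  haveI : Finite (S ⧸ P) := ‹Finite (IsLocalRing.ResidueField S)›
  haveI : Finite (R ⧸ p) :=
    Finite.of_injective (algebraMap (R ⧸ p) (S ⧸ P))
      (FaithfulSMul.algebraMap_injective (R ⧸ p) (S ⧸ P))
  haveI : PerfectField p.ResidueField := PerfectField.ofFinite
  have h1 : Nat.card (P.inertia H) = p.ramificationIdxIn S :=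
    Ideal.card_inertia_eq_ramificationIdxIn p P
  have h2 : p.ramificationIdxIn S = P.ramificationIdx R :=
    Ideal.ramificationIdxIn_eq_ramificationIdx p P H
  obtain ⟨r₀, hr₀fix, hr₀P, hr₀n⟩ := hnle
  have hr₀p : (⟨r₀, fun h => hr₀fix h.1 h.2⟩ : R) ∈ p := hr₀P
  have hr₀0 : r₀ ≠ 0 := by
    rintro rfl
    exact hr₀n (Ideal.zero_mem _)
  have hpS : Ideal.map (algebraMap R S) p ≠ ⊥ := by
    intro hbot
    have : algebraMap R S ⟨r₀, fun h => hr₀fix h.1 h.2⟩ ∈ Ideal.map (algebraMap R S) p :=
      Ideal.mem_map_of_mem _ hr₀p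
    rw [hbot, Ideal.mem_bot] at this
    exact hr₀0 this
  have h3 : p.ramificationIdx' P = P.ramificationIdx R :=
    Ideal.ramificationIdx'_eq_ramificationIdx' p P hpS
  have h4 : p.ramificationIdx' P = n := by
    refine Ideal.ramificationIdx'_spec ?_ ?_
    · rw [Ideal.map_le_iff_le_comap]
      intro r hr
      exact hle (r : S) (fun h hh => r.2 ⟨h, hh⟩) hr
    · intro hcon
      exact hr₀n (hcon (Ideal.mem_map_of_mem _ hr₀p))
  have h5 : Nat.card ↥(P.inertia G ⊓ H) = Nat.card (P.inertia H) := by
    rw [← Nat.card_congr (Subgroup.subgroupOfEquivOfLe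
      (inf_le_right : P.inertia G ⊓ H ≤ H)).toEquiv, Subgroup.inf_subgroupOf_right]
    rfl
  rw [h5, h1, h2, ← h3, h4]

end Abstract

section Concrete

variable (A F : Type) [CommRing A] [IsDomain A] [IsDiscreteValuationRing A]
  [IsAdicComplete (IsLocalRing.maximalIdeal A) A] [Finite (IsLocalRing.ResidueField A)]
  [Field F] [CharZero F] [Algebra A F] [IsFractionRing A F]
  (K : Type) [Field K] [Algebra F K] [FiniteDimensional F K]
  (N : Type) [Field N] [Algebra F N] [Algebra K N] [IsScalarTower F K N]
  [FiniteDimensional K N] [IsGalois K N]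

/-- The Galois action commutes with the `A`-module structure of `N`. -/
lemma smulCommClass_gal :
    letI : Algebra A N := H715.algAL A F N
    SMulCommClass (N ≃ₐ[K] N) A N := by
  letI : Algebra A N := H715.algAL A F N
  refine ⟨fun σ a x => ?_⟩
  rw [Algebra.smul_def, Algebra.smul_def, AlgEquiv.smul_def, AlgEquiv.smul_def, map_mul]
  congr 1
  show σ (toL A F N a) = toL A F N a
  rw [H608.toL_eq_algebraMap_toL A F N K a, σ.commutes]

variable {A F N} in
/-- The order (w.r.t. a uniformizer `ϖ`) of a nonzero element of the maximal ideal is positive,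
and membership in powers of the maximal ideal is read off from the order. -/
lemma mem_maximalIdeal_pow_iff
    [Algebra A N] [IsScalarTower A F N] [FiniteDimensional F N]
    [IsLocalRing (integralClosure A N)]
    {ϖ : Nˣ} (hϖ : IsUnif A F N ϖ) (s : integralClosure A N) (y : Nˣ) (hy : (y : N) = (s : N))
    (n : ℕ) :
    s ∈ maximalIdeal (integralClosure A N) ^ (n + 1) ↔ (n : ℤ) + 1 ≤ ord A F N ϖ y := by
  have hϖint : (ϖ : N) ∈ integralClosure A N := (H715.isInt_iff_mem A F N _).mp hϖ.1
  set ϖS : integralClosure A N := ⟨ϖ, hϖint⟩ with hϖS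
  -- divisibility by powers of `ϖS`
  have hdvd : ∀ (t : integralClosure A N) (z : Nˣ), (z : N) = (t : N) → ∀ m : ℕ,
      (ϖS ^ m ∣ t ↔ (m : ℤ) ≤ ord A F N ϖ z) := by
    intro t z hz m
    rw [← isInt_div_pow_iff hϖ, H715.isInt_iff_mem A F N]
    constructor
    · rintro ⟨c, hc⟩
      have : (z : N) / (ϖ : N) ^ m = (c : N) := by
        rw [hz, hc]
        simp only [hϖS, Subalgebra.coe_mul, Subalgebra.coe_pow]
        field_simp
      rw [this]
      exact c.2
    · intro hmem
      refine ⟨⟨_, hmem⟩, Subtype.ext ?_⟩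
      simp only [hϖS, Subalgebra.coe_mul, Subalgebra.coe_pow]
      rw [← hz]
      field_simp
  -- the maximal ideal is generated by `ϖS`
  have hmax : maximalIdeal (integralClosure A N) = Ideal.span {ϖS} := by
    apply le_antisymm
    · intro t ht
      rw [Ideal.mem_span_singleton]
      by_cases ht0 : t = 0
      · rw [ht0]; exact dvd_zero _
      have ht0' : (t : N) ≠ 0 := fun h => ht0 (Subtype.ext h)
      have h1 := (hdvd t (Units.mk0 (t : N) ht0') rfl 1)
      rw [pow_one] at h1
      rw [h1]
      have h0 : 0 ≤ ord A F N ϖ (Units.mk0 (t : N) ht0') :=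
        (isInt_iff_ord_nonneg hϖ _).mp ((H715.isInt_iff_mem A F N _).mpr t.2)
      rcases h0.lt_or_eq with h | h
      · exact_mod_cast h
      · exfalso
        have hu := (ord_eq_zero_iff hϖ).mp h.symm
        rw [mem_maximalIdeal, mem_nonunits_iff] at ht
        apply ht
        have hinv : ((Units.mk0 (t : N) ht0')⁻¹ : Nˣ).1 ∈ integralClosure A N :=
          (H715.isInt_iff_mem A F N _).mp ((mem_intUnits A F N).mp hu).2
        refine isUnit_iff_exists_inv.mpr ⟨⟨_, hinv⟩, Subtype.ext ?_⟩
        simp only [Subalgebra.coe_mul, Units.val_inv_eq_inv_val, Units.val_mk0,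
          Subalgebra.coe_one]
        exact mul_inv_cancel₀ ht0'
    · rw [Ideal.span_le, Set.singleton_subset_iff, SetLike.mem_coe, mem_maximalIdeal,
        mem_nonunits_iff]
      intro hu
      apply hϖ.2.1
      rw [mem_intUnits]
      refine ⟨hϖ.1, ?_⟩
      obtain ⟨c, hc⟩ := isUnit_iff_exists_inv.mp hu
      have hc' : (ϖ : N) * (c : N) = 1 := by
        have := congrArg (fun t : integralClosure A N => (t : N)) hc
        simpa [hϖS] using this
      have : ((ϖ⁻¹ : Nˣ) : N) = (c : N) := by
        rw [Units.val_inv_eq_inv_val]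
        exact inv_eq_of_mul_eq_one_right hc'
      rw [this]
      exact (H715.isInt_iff_mem A F N _).mpr c.2
  rw [hmax, Ideal.span_singleton_pow, Ideal.mem_span_singleton, hdvd s y hy (n + 1)]
  push_cast
  rfl

/-- **Key theorem.**  There is a normal subgroup `I` of `Gal(N/K)` (the inertia group) such that
for every subgroup `H`: if `d > 0` is the least positive order of an `H`-invariant element of
`Nˣ`, then `|I ⊓ H| = d`. -/
theorem exists_inertia_ord {ϖ : Nˣ} (hϖ : IsUnif A F N ϖ) :
    ∃ I : Subgroup (N ≃ₐ[K] N), I.Normal ∧ ∀ (H : Subgroup (N ≃ₐ[K] N)) (d : ℕ),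
      (∀ y : Nˣ, (∀ σ ∈ H, σ • y = y) → 0 < ord A F N ϖ y → (d : ℤ) ≤ ord A F N ϖ y) →
      (∃ y : Nˣ, (∀ σ ∈ H, σ • y = y) ∧ ord A F N ϖ y = d) → 0 < d →
      Nat.card ↥(I ⊓ H) = d := by
  letI : Algebra A N := H715.algAL A F N
  haveI : IsScalarTower A F N := H715.isScalarTower_algAL A F N
  haveI : FiniteDimensional F N := FiniteDimensional.trans F K N
  haveI : SMulCommClass (N ≃ₐ[K] N) A N := smulCommClass_gal A F K N
  haveI := H715.isDiscreteValuationRing_OL A F N
  haveI := H715.finite_OL A F N
  haveI : Finite (ResidueField (integralClosure A N)) := H715.finite_residueField_OL A F N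
  haveI := H715.isFractionRing_OL A F N
  haveI : FaithfulSMul (N ≃ₐ[K] N) (integralClosure A N) := by
    refine ⟨fun {σ τ} h => ?_⟩
    apply AlgEquiv.ext
    intro x
    obtain ⟨a, b, hb, rfl⟩ := IsFractionRing.div_surjective (A := integralClosure A N) x
    have ha' : σ (a : N) = τ (a : N) := congrArg (fun t : integralClosure A N => (t : N)) (h a)
    have hb' : σ (b : N) = τ (b : N) := congrArg (fun t : integralClosure A N => (t : N)) (h b)
    have e1 : algebraMap (integralClosure A N) N a = (a : N) := rfl
    have e2 : algebraMap (integralClosure A N) N b = (b : N) := rfl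
    rw [e1, e2, map_div₀, map_div₀, ha', hb']
  refine ⟨(maximalIdeal (integralClosure A N)).inertia (N ≃ₐ[K] N), ?_, ?_⟩
  · -- normality
    refine ⟨fun σ hσ τ => ?_⟩
    intro x
    have h1 := hσ (τ⁻¹ • x)
    have h2 : τ • (σ • (τ⁻¹ • x) - τ⁻¹ • x) ∈
        (maximalIdeal (integralClosure A N)).toAddSubgroup := by
      show τ • (σ • (τ⁻¹ • x) - τ⁻¹ • x) ∈ maximalIdeal (integralClosure A N)
      rw [mem_maximalIdeal, mem_nonunits_iff]
      intro hu
      have h1' : (σ • (τ⁻¹ • x) - τ⁻¹ • x) ∈ maximalIdeal (integralClosure A N) := h1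
      rw [mem_maximalIdeal, mem_nonunits_iff] at h1'
      apply h1'
      have := hu.map (MulSemiringAction.toRingHom (N ≃ₐ[K] N) (integralClosure A N) τ⁻¹)
      simpa using this
    have e : τ • (σ • (τ⁻¹ • x) - τ⁻¹ • x) = (τ * σ * τ⁻¹) • x - x := by
      rw [smul_sub, smul_smul, smul_smul, smul_smul, mul_inv_cancel, one_smul]
    rw [e] at h2
    exact h2
  · intro H d hmin hex hd
    obtain ⟨d', rfl⟩ : ∃ d', d = d' + 1 := ⟨d - 1, by omega⟩
    refine card_inertia_inf_eq A H (d' + 1) ?_ ?_
    · intro r hr hrP
      by_cases hr0 : r = 0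
      · rw [hr0]; exact Ideal.zero_mem _
      have hr0' : (r : N) ≠ 0 := fun h => hr0 (Subtype.ext h)
      set y : Nˣ := Units.mk0 (r : N) hr0' with hy
      have hyfix : ∀ σ ∈ H, σ • y = y := by
        intro σ hσ
        apply Units.ext
        have := congrArg (fun t : integralClosure A N => (t : N)) (hr σ hσ)
        simpa [hy, AlgEquiv.smul_units_def] using this
      have hpos : 0 < ord A F N ϖ y := by
        have h1 : r ∈ maximalIdeal (integralClosure A N) ^ (0 + 1) := by simpa using hrP
        have := (mem_maximalIdeal_pow_iff (F := F) hϖ r y rfl 0).mp h1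
        omega
      have := hmin y hyfix hpos
      rw [mem_maximalIdeal_pow_iff (F := F) hϖ r y rfl d']
      push_cast at this
      exact this
    · obtain ⟨y, hyfix, hyd⟩ := hex
      have hyint : (y : N) ∈ integralClosure A N := by
        rw [← H715.isInt_iff_mem A F N, isInt_iff_ord_nonneg hϖ, hyd]
        positivity
      refine ⟨⟨y, hyint⟩, ?_, ?_, ?_⟩
      · intro σ hσ
        apply Subtype.ext
        have := congrArg (fun t : Nˣ => (t : N)) (hyfix σ hσ)
        simpa [AlgEquiv.smul_units_def] using this
      · have : (⟨y, hyint⟩ : integralClosure A N) ∈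
            maximalIdeal (integralClosure A N) ^ (0 + 1) := by
          rw [mem_maximalIdeal_pow_iff (F := F) hϖ _ y rfl 0, hyd]
          push_cast
          omega
        simpa using this
      · rw [mem_maximalIdeal_pow_iff (F := F) hϖ _ y rfl (d' + 1), hyd]
        push_cast
        omega

end Concrete

end Fermat.Agent.S55.Local.H775
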