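import Fermat.Agent.S55.Local.H775.InertiaOrd
import Fermat.Agent.S55.Local.Spec2

/-!
# S55 layer L, piece UR6 (helper775): `InertiaStatement` and `InertiaCardStatement`

* `inertiaCard775 : InertiaCardStatement` (interface `Local/Spec2.lean`: existence of a normal
  subgroup `I` with the UR6 property and `|I| = e(N/K)`);
* `inertia775 : InertiaStatement` (frozen interface `Local/Spec.lean`);
* `exists_inertia_card775`: the unbundled form of `inertiaCard775`.
-/

set_option autoImplicit false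
set_option linter.unusedSectionVars false
set_option linter.style.haveILetI false

namespace Fermat.Agent.S55.Local.H775

open Fermat.Agent.S55.Local IsLocalRing

section Concrete

variable (A F : Type) [CommRing A] [IsDomain A] [IsDiscreteValuationRing A]
  [IsAdicComplete (IsLocalRing.maximalIdeal A) A] [Finite (IsLocalRing.ResidueField A)]
  [Field F] [CharZero F] [Algebra A F] [IsFractionRing A F]
  (K : Type) [Field K] [Algebra F K] [FiniteDimensional F K]
  (N : Type) [Field N] [Algebra F N] [Algebra K N] [IsScalarTower F K N]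
  [FiniteDimensional K N] [IsGalois K N]

variable {K N} in
lemma mem_fixedUnits_fixingSubgroup_iff (E : IntermediateField K N) (y : Nˣ) :
    y ∈ fixedUnits K N E.fixingSubgroup ↔ (y : N) ∈ E := by
  rw [mem_fixedUnits_iff_coe, ← IntermediateField.mem_fixedField_iff,
    IsGalois.fixedField_fixingSubgroup]

variable {K N} in
lemma exists_unitsIncl_eq_of_mem (E : IntermediateField K N) {y : Nˣ} (hy : (y : N) ∈ E) :
    ∃ y' : Eˣ, unitsIncl N E y' = y := by
  have h0 : (⟨(y : N), hy⟩ : E) ≠ 0 := by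
    intro h
    exact y.ne_zero (congrArg (fun t : E => (t : N)) h)
  exact ⟨Units.mk0 ⟨(y : N), hy⟩ h0, Units.ext rfl⟩

variable {K N} in
lemma exists_unitsIncl_eq_of_mem_top {y : Nˣ} (hy : y ∈ fixedUnits K N ⊤) :
    ∃ z : Kˣ, unitsIncl N K z = y := by
  rw [mem_fixedUnits_iff_coe] at hy
  obtain ⟨z, hz⟩ := (IsGalois.mem_range_algebraMap_iff_fixed (F := K) (E := N) (y : N)).mpr
    (fun σ => hy σ (Subgroup.mem_top σ))
  have h0 : z ≠ 0 := by
    rintro rfl
    rw [map_zero] at hz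
    exact y.ne_zero hz.symm
  exact ⟨Units.mk0 z h0, Units.ext hz⟩

/-- Integral units of a subfield are detected in the big field. -/
lemma unitsIncl_mem_intUnits_iff (A F : Type) [CommRing A] [Field F] [Algebra A F]
    (K : Type) [Field K] [Algebra F K]
    (N : Type) [Field N] [Algebra F N] [Algebra K N] [IsScalarTower F K N] (y : Kˣ) :
    unitsIncl N K y ∈ intUnits A F N ↔ y ∈ intUnits A F K := by
  rw [mem_intUnits, mem_intUnits]
  have h1 : ((unitsIncl N K y : Nˣ) : N) = algebraMap K N (y : K) := rfl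
  have h2 : (((unitsIncl N K y)⁻¹ : Nˣ) : N) = algebraMap K N ((y⁻¹ : Kˣ) : K) := by
    rw [← map_inv]; rfl
  rw [h1, h2, H608.isInt_algebraMap_iff, H608.isInt_algebraMap_iff]

/-- The UR6 property follows from the structure property of `exists_inertia_dvd`. -/
theorem isInertia_of_dvd {ϖ : Nˣ} (hϖ : IsUnif A F N ϖ) (I : Subgroup (N ≃ₐ[K] N))
    (hI : ∀ H : Subgroup (N ≃ₐ[K] N),
      0 < Nat.card ↥(I ⊓ H) ∧
      (∀ y ∈ fixedUnits K N H, ((Nat.card ↥(I ⊓ H) : ℕ) : ℤ) ∣ ord A F N ϖ y) ∧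
      (∃ y ∈ fixedUnits K N H, ord A F N ϖ y = (Nat.card ↥(I ⊓ H) : ℕ))) :
    IsInertiaSubgroup A F K N I := by
  intro E
  letI : Algebra F E := ((algebraMap K E).comp (algebraMap F K)).toAlgebra
  haveI : IsScalarTower F K E := IsScalarTower.of_algebraMap_eq (fun _ => rfl)
  haveI : IsScalarTower F E N := by
    refine IsScalarTower.of_algebraMap_eq (fun x => ?_)
    rw [IsScalarTower.algebraMap_apply F K N, IsScalarTower.algebraMap_apply F K E,
      ← IsScalarTower.algebraMap_apply K E N]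
  obtain ⟨hpos, hdvd, y₀, hy₀, hy₀c⟩ := hI E.fixingSubgroup
  obtain ⟨hposT, hdvdT, y₁, hy₁, hy₁c⟩ := hI ⊤
  have htop : Nat.card ↥(I ⊓ (⊤ : Subgroup (N ≃ₐ[K] N))) = Nat.card ↥I := by rw [inf_top_eq]
  have htower : ∀ z : Kˣ, unitsIncl N E (unitsIncl E K z) = unitsIncl N K z := by
    intro z
    apply Units.ext
    show algebraMap E N (algebraMap K E (z : K)) = algebraMap K N (z : K)
    rw [← IsScalarTower.algebraMap_apply K E N]
  constructor
  · -- (i)
    show IsUnram A F N E ↔ E.fixingSubgroup ⊓ I = ⊥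
    constructor
    · intro hU
      obtain ⟨y, hy⟩ := hU ϖ
      have h1 : ord A F N ϖ (unitsIncl N E y) = 1 := by
        rw [← ord_eq_of_div_mem hϖ hy, ord_self hϖ]
      have h2 := hdvd (unitsIncl N E y)
        ((mem_fixedUnits_fixingSubgroup_iff E _).mpr (y : E).2)
      rw [h1] at h2
      have h3 : Nat.card ↥(I ⊓ E.fixingSubgroup) = 1 := by
        have : (Nat.card ↥(I ⊓ E.fixingSubgroup) : ℤ) = 1 :=
          Int.eq_one_of_dvd_one (by positivity) h2
        exact_mod_cast this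
      rw [inf_comm]
      exact Subgroup.card_eq_one.mp h3
    · intro hbot
      have h3 : Nat.card ↥(I ⊓ E.fixingSubgroup) = 1 := by
        rw [inf_comm, hbot]
        exact Subgroup.card_eq_one.mpr rfl
      rw [h3] at hy₀c
      obtain ⟨y₀', hy₀'⟩ := exists_unitsIncl_eq_of_mem E
        ((mem_fixedUnits_fixingSubgroup_iff E _).mp hy₀)
      intro x
      refine ⟨y₀' ^ (ord A F N ϖ x), ?_⟩
      apply div_mem_of_ord_eq hϖ
      rw [map_zpow, hy₀', ord_zpow hϖ, hy₀c]
      push_cast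
      ring
  · -- (ii)
    show IsUnram A F E K ↔ I ≤ E.fixingSubgroup
    constructor
    · intro hU
      obtain ⟨y₀', hy₀'⟩ := exists_unitsIncl_eq_of_mem E
        ((mem_fixedUnits_fixingSubgroup_iff E _).mp hy₀)
      obtain ⟨z, hz⟩ := hU y₀'
      have hz' : unitsIncl N E (y₀' * (unitsIncl E K z)⁻¹) ∈ intUnits A F N :=
        (unitsIncl_mem_intUnits_iff A F E N _).mpr hz
      rw [map_mul, map_inv, hy₀', htower] at hz'
      have h1 : ord A F N ϖ (unitsIncl N K z) = (Nat.card ↥(I ⊓ E.fixingSubgroup) : ℕ) := by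
        rw [← ord_eq_of_div_mem hϖ hz', hy₀c]
      have h2 := hdvdT (unitsIncl N K z) (unitsIncl_mem_fixedUnits ⊤ z)
      rw [h1, htop] at h2
      have h3 : Nat.card ↥I ∣ Nat.card ↥(I ⊓ E.fixingSubgroup) := by exact_mod_cast h2
      have h4 : Nat.card ↥I ≤ Nat.card ↥(I ⊓ E.fixingSubgroup) := Nat.le_of_dvd hpos h3
      have h5 : I ⊓ E.fixingSubgroup = I := Subgroup.eq_of_le_of_card_ge inf_le_left h4
      exact inf_eq_left.mp h5
    · intro hle
      have h5 : I ⊓ E.fixingSubgroup = I := inf_eq_left.mpr hle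
      rw [h5] at hdvd
      rw [htop] at hy₁c
      obtain ⟨z, hz⟩ := exists_unitsIncl_eq_of_mem_top hy₁
      intro x
      obtain ⟨m, hm⟩ := hdvd (unitsIncl N E x)
        ((mem_fixedUnits_fixingSubgroup_iff E _).mpr (x : E).2)
      refine ⟨z ^ m, ?_⟩
      rw [← unitsIncl_mem_intUnits_iff A F E N, map_mul, map_inv, htower]
      apply div_mem_of_ord_eq hϖ
      rw [hm, map_zpow, hz, ord_zpow hϖ, hy₁c]
      ring

/-- Existence of the inertia subgroup with the UR6 property and of order `e(N/K)`. -/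
theorem exists_inertia_card775 :
    ∃ I : Subgroup (N ≃ₐ[K] N), I.Normal ∧ IsInertiaSubgroup A F K N I ∧
      ∀ (ϖK : Kˣ) (ϖN : Nˣ), IsUnif A F K ϖK → IsUnif A F N ϖN →
        unitsIncl N K ϖK * ϖN ^ (-(Nat.card I : ℤ)) ∈ intUnits A F N := by
  haveI : FiniteDimensional F N := FiniteDimensional.trans F K N
  obtain ⟨ϖ, hϖ⟩ := H608.exists_isUnif A F N
  obtain ⟨I, hIn, hI⟩ := exists_inertia_dvd A F K N hϖ
  refine ⟨I, hIn, isInertia_of_dvd A F K N hϖ I hI, ?_⟩
  intro ϖK ϖN hK hN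
  obtain ⟨hposT, hdvdT, y₁, hy₁, hy₁c⟩ := hI ⊤
  have htop : Nat.card ↥(I ⊓ (⊤ : Subgroup (N ≃ₐ[K] N))) = Nat.card ↥I := by rw [inf_top_eq]
  rw [htop] at hposT hdvdT hy₁c
  -- `ord (ϖK) = |I|`
  have h1 := hdvdT (unitsIncl N K ϖK) (unitsIncl_mem_fixedUnits ⊤ ϖK)
  have h2 : 0 < ord A F N ϖ (unitsIncl N K ϖK) := ord_unitsIncl_unif_pos (K := K) hϖ hK
  obtain ⟨z, hz⟩ := exists_unitsIncl_eq_of_mem_top hy₁
  obtain ⟨n, hn⟩ := hK.2.2 z
  have hn' : unitsIncl N K (z * ϖK ^ (-n)) ∈ intUnits A F N :=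
    (unitsIncl_mem_intUnits_iff A F K N _).mpr hn
  have h3 : ord A F N ϖ (unitsIncl N K (z * ϖK ^ (-n))) = 0 := (ord_eq_zero_iff hϖ).mpr hn'
  rw [map_mul, map_zpow, ord_mul hϖ, ord_zpow hϖ, hz, hy₁c] at h3
  have h4 : ord A F N ϖ (unitsIncl N K ϖK) ∣ (Nat.card ↥I : ℤ) := ⟨n, by linarith⟩
  have h5 : ord A F N ϖ (unitsIncl N K ϖK) = (Nat.card ↥I : ℤ) :=
    Int.dvd_antisymm h2.le (by positivity) h4 h1
  apply (ord_eq_zero_iff hϖ).mp
  rw [ord_mul hϖ, ord_zpow hϖ, h5, ord_eq_ord hN hϖ ϖN, ord_self hN]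
  ring

end Concrete

/-- **UR6** `InertiaStatement`, exact frozen form. -/
theorem inertia775 : InertiaStatement := by
  intro A F _ _ _ _ _ _ _ _ _ K _ _ _ N _ _ _ _ _ _
  obtain ⟨I, hIn, hI, -⟩ := exists_inertia_card775 A F K N
  exact ⟨I, hIn, hI⟩

/-- **UR6'** `InertiaCardStatement`, exact form of `Local/Spec2.lean`. -/
theorem inertiaCard775 : InertiaCardStatement := by
  intro A F _ _ _ _ _ _ _ _ _ K _ _ _ N _ _ _ _ _ _
  exact exists_inertia_card775 A F K N

end Fermat.Agent.S55.Local.H775
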