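import Fermat.Agent.S55.Local.H775.InertiaCore

/-!
# S55 layer L, piece UR6 (helper775): orders of invariant elements

`exists_inertia_dvd`: for `N / K` finite Galois of local fields and a uniformizer `ϖ` of `N`
there is a normal subgroup `I` of `Gal(N/K)` such that, for every subgroup `H`, the set of
orders of the `H`-invariant elements of `Nˣ` is exactly `|I ⊓ H| • ℤ`.
-/

set_option autoImplicit false
set_option linter.unusedSectionVars false
set_option linter.style.haveILetI false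

namespace Fermat.Agent.S55.Local.H775

open Fermat.Agent.S55.Local IsLocalRing

section Fixed

variable (K : Type) [Field K] (N : Type) [Field N] [Algebra K N]

/-- The `H`-invariant elements of `Nˣ`. -/
def fixedUnits (H : Subgroup (N ≃ₐ[K] N)) : Subgroup Nˣ where
  carrier := {y | ∀ σ ∈ H, σ • y = y}
  mul_mem' := by
    intro a b ha hb σ hσ
    rw [smul_mul', ha σ hσ, hb σ hσ]
  one_mem' := fun σ _ => smul_one σ
  inv_mem' := by
    intro a ha σ hσ
    rw [smul_inv', ha σ hσ]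

variable {K N}

lemma mem_fixedUnits {H : Subgroup (N ≃ₐ[K] N)} {y : Nˣ} :
    y ∈ fixedUnits K N H ↔ ∀ σ ∈ H, σ • y = y := Iff.rfl

lemma mem_fixedUnits_iff_coe {H : Subgroup (N ≃ₐ[K] N)} {y : Nˣ} :
    y ∈ fixedUnits K N H ↔ ∀ σ ∈ H, σ (y : N) = (y : N) := by
  rw [mem_fixedUnits]
  refine forall₂_congr fun σ _ => ?_
  constructor
  · intro h
    exact congrArg (fun t : Nˣ => (t : N)) h
  · intro h
    exact Units.ext h

lemma unitsIncl_mem_fixedUnits (H : Subgroup (N ≃ₐ[K] N)) (y : Kˣ) :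
    unitsIncl N K y ∈ fixedUnits K N H := by
  rw [mem_fixedUnits_iff_coe]
  intro σ _
  exact σ.commutes _

lemma fixedUnits_anti {H H' : Subgroup (N ≃ₐ[K] N)} (h : H ≤ H') :
    fixedUnits K N H' ≤ fixedUnits K N H :=
  fun _ hy σ hσ => hy σ (h hσ)

end Fixed

section Concrete

variable (A F : Type) [CommRing A] [IsDomain A] [IsDiscreteValuationRing A]
  [IsAdicComplete (IsLocalRing.maximalIdeal A) A] [Finite (IsLocalRing.ResidueField A)]
  [Field F] [CharZero F] [Algebra A F] [IsFractionRing A F]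
  (K : Type) [Field K] [Algebra F K] [FiniteDimensional F K]
  (N : Type) [Field N] [Algebra F N] [Algebra K N] [IsScalarTower F K N]
  [FiniteDimensional K N] [IsGalois K N]

variable {A F N} in
/-- The image in `N` of a uniformizer of `K` has positive order. -/
lemma ord_unitsIncl_unif_pos {ϖ : Nˣ} (hϖ : IsUnif A F N ϖ) {ϖK : Kˣ} (hK : IsUnif A F K ϖK) :
    0 < ord A F N ϖ (unitsIncl N K ϖK) := by
  have h0 : 0 ≤ ord A F N ϖ (unitsIncl N K ϖK) := by
    rw [← isInt_iff_ord_nonneg hϖ]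
    exact (H608.isInt_algebraMap_iff A F N K _).mpr hK.1
  rcases h0.lt_or_eq with h | h
  · exact h
  · exfalso
    have hu := (ord_eq_zero_iff hϖ).mp h.symm
    apply hK.2.1
    rw [mem_intUnits] at hu ⊢
    refine ⟨hK.1, ?_⟩
    have e : (((unitsIncl N K ϖK)⁻¹ : Nˣ) : N) = algebraMap K N ((ϖK⁻¹ : Kˣ) : K) := by
      rw [← map_inv]; rfl
    rw [e] at hu
    exact (H608.isInt_algebraMap_iff A F N K _).mp hu.2

/-- **Structure theorem.** -/
theorem exists_inertia_dvd {ϖ : Nˣ} (hϖ : IsUnif A F N ϖ) :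
    ∃ I : Subgroup (N ≃ₐ[K] N), I.Normal ∧ ∀ H : Subgroup (N ≃ₐ[K] N),
      0 < Nat.card ↥(I ⊓ H) ∧
      (∀ y ∈ fixedUnits K N H, ((Nat.card ↥(I ⊓ H) : ℕ) : ℤ) ∣ ord A F N ϖ y) ∧
      (∃ y ∈ fixedUnits K N H, ord A F N ϖ y = (Nat.card ↥(I ⊓ H) : ℕ)) := by
  classical
  obtain ⟨I, hI, hcard⟩ := exists_inertia_ord A F K N hϖ
  refine ⟨I, hI, fun H => ?_⟩
  -- the least positive order of an invariant element
  obtain ⟨ϖK, hK⟩ := H608.exists_isUnif A F K
  have hex : ∃ n : ℕ, 0 < n ∧ ∃ y ∈ fixedUnits K N H, ord A F N ϖ y = n := by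
    have hpos := ord_unitsIncl_unif_pos (K := K) hϖ hK
    refine ⟨(ord A F N ϖ (unitsIncl N K ϖK)).toNat, by omega, unitsIncl N K ϖK,
      unitsIncl_mem_fixedUnits H ϖK, ?_⟩
    rw [Int.toNat_of_nonneg hpos.le]
  set d := Nat.find hex with hd
  obtain ⟨hdpos, y₀, hy₀, hy₀d⟩ := Nat.find_spec hex
  have hmin : ∀ y : Nˣ, (∀ σ ∈ H, σ • y = y) → 0 < ord A F N ϖ y → (d : ℤ) ≤ ord A F N ϖ y := by
    intro y hy hpos
    have : d ≤ (ord A F N ϖ y).toNat :=
      Nat.find_min' hex ⟨by omega, y, hy, by rw [Int.toNat_of_nonneg hpos.le]⟩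
    omega
  have hc : Nat.card ↥(I ⊓ H) = d := hcard H d hmin ⟨y₀, hy₀, hy₀d⟩ hdpos
  rw [hc]
  refine ⟨hdpos, ?_, y₀, hy₀, hy₀d⟩
  intro y hy
  -- division with remainder
  set q := ord A F N ϖ y / (d : ℤ) with hq
  set r := ord A F N ϖ y % (d : ℤ) with hr
  have hdz : (0 : ℤ) < d := by exact_mod_cast hdpos
  have hr0 : 0 ≤ r := Int.emod_nonneg _ hdz.ne'
  have hrd : r < d := Int.emod_lt_of_pos _ hdz
  have hdecomp : ord A F N ϖ y = (d : ℤ) * q + r := (Int.mul_ediv_add_emod _ _).symm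
  have hy' : y * y₀ ^ (-q) ∈ fixedUnits K N H :=
    (fixedUnits K N H).mul_mem hy ((fixedUnits K N H).zpow_mem hy₀ _)
  have hord' : ord A F N ϖ (y * y₀ ^ (-q)) = r := by
    rw [ord_mul hϖ, ord_zpow hϖ, hy₀d, hdecomp]
    ring
  have hr_zero : r = 0 := by
    by_contra hne
    have hrpos : 0 < r := lt_of_le_of_ne hr0 (Ne.symm hne)
    have := hmin _ hy' (by rw [hord']; exact hrpos)
    rw [hord'] at this
    omega
  exact Int.dvd_of_emod_eq_zero hr_zero

end Concrete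

end Fermat.Agent.S55.Local.H775
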