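import Fermat.Agent.S55.Local.Spec

/-!
# S55 layer L (helper775): the order function attached to a uniformizer

For a uniformizer `ϖ` of `L` (`IsUnif A F L ϖ`) we define `ord ϖ x : ℤ` for `x : Lˣ` by
`x * ϖ ^ (-ord ϖ x) ∈ intUnits A F L`, and prove its basic properties.  Everything here is formal
(no hypotheses on `A`, `F`, `L` besides the existence of the uniformizer).
-/

set_option autoImplicit false
set_option linter.unusedSectionVars false

namespace Fermat.Agent.S55.Local.H775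

open Fermat.Agent.S55.Local

section Ord

variable (A F : Type) [CommRing A] [Field F] [Algebra A F]
variable (L : Type) [Field L] [Algebra F L]

lemma isInt_pow {x : L} (hx : IsInt A F L x) (n : ℕ) : IsInt A F L (x ^ n) := by
  induction n with
  | zero => simpa using isInt_one A F L
  | succ k ih => rw [pow_succ]; exact ih.mul hx

/-- The order of `x` with respect to `ϖ` (junk value `0` if `x` is not a unit times a power of
`ϖ`). -/
noncomputable def ord (ϖ x : Lˣ) : ℤ :=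
  open Classical in
  if h : ∃ n : ℤ, x * ϖ ^ (-n) ∈ intUnits A F L then h.choose else 0

variable {A F L}
variable {ϖ : Lˣ} (hϖ : IsUnif A F L ϖ)

include hϖ

lemma zpow_mem_intUnits_iff {j : ℤ} : ϖ ^ j ∈ intUnits A F L ↔ j = 0 := by
  obtain ⟨h1, h2, -⟩ := hϖ
  constructor
  · intro hj
    -- a positive power of `ϖ` is not a unit
    have key : ∀ n : ℕ, 0 < n → ϖ ^ n ∉ intUnits A F L := by
      intro n hn h
      apply h2
      rw [mem_intUnits]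
      refine ⟨h1, ?_⟩
      obtain ⟨k, rfl⟩ : ∃ k, n = k + 1 := ⟨n - 1, by omega⟩
      have e : (ϖ⁻¹ : Lˣ) = ϖ ^ k * (ϖ ^ (k + 1))⁻¹ := by
        rw [pow_succ, mul_inv_rev, mul_comm (ϖ⁻¹), ← mul_assoc, mul_inv_cancel, one_mul]
      rw [e, Units.val_mul, Units.val_pow_eq_pow_val]
      exact (isInt_pow A F L h1 k).mul ((mem_intUnits A F L).mp h).2
    by_contra hne
    rcases lt_or_gt_of_ne hne with hlt | hgt
    · have h := (intUnits A F L).inv_mem hj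
      rw [← zpow_neg] at h
      obtain ⟨n, hn⟩ : ∃ n : ℕ, -j = (n : ℤ) := ⟨(-j).toNat, by omega⟩
      rw [hn, zpow_natCast] at h
      exact key n (by omega) h
    · obtain ⟨n, hn⟩ : ∃ n : ℕ, j = (n : ℤ) := ⟨j.toNat, by omega⟩
      rw [hn, zpow_natCast] at hj
      exact key n (by omega) hj
  · rintro rfl
    simp

lemma ord_spec (x : Lˣ) : x * ϖ ^ (-(ord A F L ϖ x)) ∈ intUnits A F L := by
  have h : ∃ n : ℤ, x * ϖ ^ (-n) ∈ intUnits A F L := hϖ.2.2 x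
  unfold ord
  rw [dif_pos h]
  exact h.choose_spec

lemma ord_eq_of {x : Lˣ} {n : ℤ} (h : x * ϖ ^ (-n) ∈ intUnits A F L) : ord A F L ϖ x = n := by
  have h1 := ord_spec hϖ x
  have h2 : ϖ ^ (n - ord A F L ϖ x) ∈ intUnits A F L := by
    have := (intUnits A F L).mul_mem ((intUnits A F L).inv_mem h) h1
    have e : (x * ϖ ^ (-n))⁻¹ * (x * ϖ ^ (-(ord A F L ϖ x))) = ϖ ^ (n - ord A F L ϖ x) := by
      rw [mul_inv, ← zpow_neg, neg_neg, sub_eq_add_neg, zpow_add]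
      rw [mul_comm x⁻¹, mul_assoc, ← mul_assoc x⁻¹, inv_mul_cancel, one_mul]
    rwa [e] at this
  have := (zpow_mem_intUnits_iff hϖ).mp h2
  omega

lemma ord_eq_iff {x : Lˣ} {n : ℤ} : ord A F L ϖ x = n ↔ x * ϖ ^ (-n) ∈ intUnits A F L :=
  ⟨fun h => h ▸ ord_spec hϖ x, ord_eq_of hϖ⟩

lemma ord_eq_zero_iff {x : Lˣ} : ord A F L ϖ x = 0 ↔ x ∈ intUnits A F L := by
  rw [ord_eq_iff hϖ]
  simp

lemma ord_mul (x y : Lˣ) : ord A F L ϖ (x * y) = ord A F L ϖ x + ord A F L ϖ y := by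
  apply ord_eq_of hϖ
  have := (intUnits A F L).mul_mem (ord_spec hϖ x) (ord_spec hϖ y)
  have e : x * ϖ ^ (-(ord A F L ϖ x)) * (y * ϖ ^ (-(ord A F L ϖ y))) =
      x * y * ϖ ^ (-(ord A F L ϖ x + ord A F L ϖ y)) := by
    rw [neg_add, zpow_add]
    exact mul_mul_mul_comm _ _ _ _
  rwa [e] at this

lemma ord_one : ord A F L ϖ 1 = 0 := (ord_eq_zero_iff hϖ).mpr (intUnits A F L).one_mem

lemma ord_inv (x : Lˣ) : ord A F L ϖ x⁻¹ = -ord A F L ϖ x := by
  have h := ord_mul hϖ x x⁻¹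
  rw [mul_inv_cancel, ord_one hϖ] at h
  omega

lemma ord_div (x y : Lˣ) : ord A F L ϖ (x / y) = ord A F L ϖ x - ord A F L ϖ y := by
  rw [div_eq_mul_inv, ord_mul hϖ, ord_inv hϖ, sub_eq_add_neg]

lemma ord_pow (x : Lˣ) (n : ℕ) : ord A F L ϖ (x ^ n) = n * ord A F L ϖ x := by
  induction n with
  | zero => simp [ord_one hϖ]
  | succ k ih => rw [pow_succ, ord_mul hϖ, ih]; push_cast; ring

lemma ord_zpow (x : Lˣ) (n : ℤ) : ord A F L ϖ (x ^ n) = n * ord A F L ϖ x := by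
  obtain ⟨k, rfl | rfl⟩ := n.eq_nat_or_neg
  · rw [zpow_natCast, ord_pow hϖ]
  · rw [zpow_neg, zpow_natCast, ord_inv hϖ, ord_pow hϖ]; ring

lemma ord_self : ord A F L ϖ ϖ = 1 := by
  apply ord_eq_of hϖ
  rw [zpow_neg, zpow_one, mul_inv_cancel]
  exact (intUnits A F L).one_mem

lemma ord_eq_of_div_mem {x y : Lˣ} (h : x * y⁻¹ ∈ intUnits A F L) :
    ord A F L ϖ x = ord A F L ϖ y := by
  have := (ord_eq_zero_iff hϖ).mpr h
  rw [ord_mul hϖ, ord_inv hϖ] at this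
  omega

lemma div_mem_of_ord_eq {x y : Lˣ} (h : ord A F L ϖ x = ord A F L ϖ y) :
    x * y⁻¹ ∈ intUnits A F L := by
  apply (ord_eq_zero_iff hϖ).mp
  rw [ord_mul hϖ, ord_inv hϖ]
  omega

/-- An element is integral iff its order is nonnegative. -/
lemma isInt_iff_ord_nonneg (x : Lˣ) : IsInt A F L (x : L) ↔ 0 ≤ ord A F L ϖ x := by
  have hx := ord_spec hϖ x
  set n := ord A F L ϖ x with hn
  constructor
  · intro hint
    by_contra hneg
    have hneg : n < 0 := not_le.mp hneg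
    -- `ϖ⁻¹` would be integral
    obtain ⟨k, hk⟩ : ∃ k : ℕ, -n = (k : ℤ) + 1 := ⟨(-n - 1).toNat, by omega⟩
    apply hϖ.2.1
    rw [mem_intUnits]
    refine ⟨hϖ.1, ?_⟩
    have e : (ϖ⁻¹ : Lˣ) = (x * ϖ ^ (-n))⁻¹ * x * ϖ ^ k := by
      rw [hk, zpow_add, zpow_one, zpow_natCast, mul_inv, mul_inv, mul_comm x⁻¹,
        mul_assoc, mul_assoc, ← mul_assoc x⁻¹, inv_mul_cancel, one_mul, mul_comm (ϖ ^ k)⁻¹,
        mul_assoc, inv_mul_cancel, mul_one]
    rw [e, Units.val_mul, Units.val_mul, Units.val_pow_eq_pow_val]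
    exact (((mem_intUnits A F L).mp hx).2.mul hint).mul (isInt_pow A F L hϖ.1 k)
  · intro hnn
    obtain ⟨k, hk⟩ : ∃ k : ℕ, n = (k : ℤ) := ⟨n.toNat, by omega⟩
    have e : x = x * ϖ ^ (-n) * ϖ ^ k := by
      rw [hk, zpow_neg, zpow_natCast, mul_assoc, inv_mul_cancel, mul_one]
    rw [e, Units.val_mul, Units.val_pow_eq_pow_val]
    exact ((mem_intUnits A F L).mp hx).1.mul (isInt_pow A F L hϖ.1 k)

/-- `x / ϖ ^ n` is integral iff `n ≤ ord x`. -/
lemma isInt_div_pow_iff (x : Lˣ) (n : ℕ) :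
    IsInt A F L ((x : L) / (ϖ : L) ^ n) ↔ (n : ℤ) ≤ ord A F L ϖ x := by
  have e : ((x : L) / (ϖ : L) ^ n) = ((x * (ϖ ^ n)⁻¹ : Lˣ) : L) := by
    rw [Units.val_mul, Units.val_inv_eq_inv_val, Units.val_pow_eq_pow_val, div_eq_mul_inv]
  rw [e, isInt_iff_ord_nonneg hϖ, ord_mul hϖ, ord_inv hϖ, ord_pow hϖ, ord_self hϖ]
  constructor <;> intro h <;> omega

/-- Any two uniformizers have the same order function. -/
lemma ord_eq_ord {ϖ' : Lˣ} (hϖ' : IsUnif A F L ϖ') (x : Lˣ) :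
    ord A F L ϖ' x = ord A F L ϖ x := by
  -- `ord ϖ ϖ' = 1`
  have h1 : 0 < ord A F L ϖ ϖ' := by
    have h0 : 0 ≤ ord A F L ϖ ϖ' := (isInt_iff_ord_nonneg hϖ ϖ').mp hϖ'.1
    rcases h0.lt_or_eq with h | h
    · exact h
    · exact absurd ((ord_eq_zero_iff hϖ).mp h.symm) hϖ'.2.1
  have h2 : 0 < ord A F L ϖ' ϖ := by
    have h0 : 0 ≤ ord A F L ϖ' ϖ := (isInt_iff_ord_nonneg hϖ' ϖ).mp hϖ.1
    rcases h0.lt_or_eq with h | h
    · exact h
    · exact absurd ((ord_eq_zero_iff hϖ').mp h.symm) hϖ.2.1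
  -- `ϖ = u * ϖ' ^ a` gives `1 = a * ord ϖ ϖ'`
  have h3 : ord A F L ϖ ϖ = ord A F L ϖ' ϖ * ord A F L ϖ ϖ' := by
    have := ord_spec hϖ' ϖ
    have := (ord_eq_zero_iff hϖ).mpr this
    rw [ord_mul hϖ, ord_zpow hϖ] at this
    linarith
  rw [ord_self hϖ] at h3
  have h4 : ord A F L ϖ ϖ' = 1 := by
    have : ord A F L ϖ ϖ' ∣ 1 := ⟨ord A F L ϖ' ϖ, by rw [h3]; ring⟩
    exact Int.eq_one_of_dvd_one h1.le this
  have := ord_spec hϖ' x
  have := (ord_eq_zero_iff hϖ).mpr this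
  rw [ord_mul hϖ, ord_zpow hϖ, h4] at this
  linarith

end Ord

end Fermat.Agent.S55.Local.H775
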